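/-
Program G (S56), block GW-Euler, base case, node (SH-INF) — helper1.

DEFINITIONS.  `Ḡ = GQ ⧸ N`, `D ≤ Ḡ`, `φ : D →* k'ˣ`, `X_φ = baseMod N D φ`
(functions `f : Ḡ → k'` with `f (d * h) = φ d * f h`, `GQ` acting by right translation through `Ḡ`).

* `conjN N g n`      : conjugation `g n g⁻¹` of an element of the normal subgroup `N`;
* `EqChar T N D φ`   : the `𝔽_p`-space of additive characters `χ : N → k'` which are level-constant
                       (vanish on `N ∩ N'` for a level `N'` of `globalLevel T`) and `D`-equivariant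
                       (`χ (u n u⁻¹) = φ ū * χ n` for `ū ∈ D`);
* `evChar b`         : `n ↦ b n (1)` for a `1`-cochain `b : GQ → X_φ`.
-/
import Fermat.Agent.TW.Euler.Base.Defs

set_option autoImplicit false

open CategoryTheory Module
open Fermat.Agent.CFT Fermat.Agent.S55

namespace Fermat.Agent.TW.Euler.Base.ShInf

open Fermat.Agent.TW.Euler

local notation "GQ" => (AlgebraicClosure ℚ ≃ₐ[ℚ] AlgebraicClosure ℚ)

variable {p : ℕ} [Fact p.Prime] (T : Finset Nat.Primes)
  (N : Subgroup GQ) [N.Normal] (D : Subgroup (GQ ⧸ N)) {k' : Type} [Field k']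
  [Algebra (ZMod p) k'] (φ : D →* k'ˣ)

/-- Conjugation by `g` on the normal subgroup `N`. -/
noncomputable def conjN (g : GQ) (n : N) : N :=
  ⟨g * n * g⁻¹, (inferInstance : N.Normal).conj_mem n n.2 g⟩

@[simp] lemma coe_conjN (g : GQ) (n : N) : ((conjN N g n : N) : GQ) = g * n * g⁻¹ := rfl

lemma conjN_mul (g : GQ) (n n' : N) : conjN N g (n * n') = conjN N g n * conjN N g n' := by
  apply Subtype.ext
  simp only [coe_conjN, Subgroup.coe_mul]
  group

/-- `D`-equivariant level-constant characters of `N` with values in `k'`. -/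
def EqChar : Submodule (ZMod p) (N → k') where
  carrier := {χ | (∀ n n' : N, χ (n * n') = χ n + χ n') ∧
    (∃ N' : Subgroup GQ, (globalLevel T).IsLevel N' ∧ ∀ n : N, (n : GQ) ∈ N' → χ n = 0) ∧
    ∀ (u : GQ) (hu : (QuotientGroup.mk u : GQ ⧸ N) ∈ D) (n : N),
      χ (conjN N u n) = ((φ ⟨_, hu⟩ : k'ˣ) : k') * χ n}
  add_mem' := by
    rintro χ χ' ⟨h1, ⟨N₁, hN₁, h2⟩, h3⟩ ⟨h1', ⟨N₂, hN₂, h2'⟩, h3'⟩
    refine ⟨fun n n' => ?_, ?_, fun u hu n => ?_⟩
    · simp only [Pi.add_apply, h1, h1']; ring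
    · obtain ⟨N₃, hN₃, hle⟩ := (globalLevel T).directed hN₁ hN₂
      refine ⟨N₃, hN₃, fun n hn => ?_⟩
      simp only [Pi.add_apply, h2 n (hle hn).1, h2' n (hle hn).2, add_zero]
    · simp only [Pi.add_apply]
      rw [h3 u hu n, h3' u hu n]; ring
  zero_mem' := by
    refine ⟨fun n n' => by simp, ?_, fun u hu n => by simp⟩
    obtain ⟨N₁, hN₁⟩ := (globalLevel T).exists_level
    exact ⟨N₁, hN₁, fun n _ => rfl⟩
  smul_mem' := by
    rintro c χ ⟨h1, ⟨N₁, hN₁, h2⟩, h3⟩
    refine ⟨fun n n' => ?_, ⟨N₁, hN₁, fun n hn => ?_⟩, fun u hu n => ?_⟩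
    · simp only [Pi.smul_apply, h1, smul_add]
    · simp only [Pi.smul_apply, h2 n hn, smul_zero]
    · simp only [Pi.smul_apply]
      rw [h3 u hu n, mul_smul_comm]

/-- Evaluation at `1 : Ḡ` of the values on `N` of a `1`-cochain with values in `X_φ`. -/
noncomputable def evChar (b : GQ → baseMod (p := p) N D φ) : N → k' :=
  fun n => (b n).1 1

end Fermat.Agent.TW.Euler.Base.ShInf
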