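/-
Program G (S56), block GW-Euler, base case, node (SH-INF) — helper1.

Elementary identities for `1`-cocycles `b : GQ → X_φ` (`X_φ = baseMod N D φ`, on which `N` acts
trivially): `b` is additive on `N`, `g • b n = b (g n g⁻¹)`, and the values of `b n` are given by
`evChar b` on the conjugates of `n`; hence `evChar b ∈ EqChar`.
-/
import Fermat.Agent.TW.Euler.Base.ShInf.Defs

set_option autoImplicit false

open CategoryTheory Module groupCohomology
open Fermat.Agent.CFT Fermat.Agent.S55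

namespace Fermat.Agent.TW.Euler.Base.ShInf

open Fermat.Agent.TW.Euler

local notation "GQ" => (AlgebraicClosure ℚ ≃ₐ[ℚ] AlgebraicClosure ℚ)

variable {p : ℕ} [Fact p.Prime] {T : Finset Nat.Primes}
  {N : Subgroup GQ} [N.Normal] {D : Subgroup (GQ ⧸ N)} {k' : Type} [Field k']
  [Algebra (ZMod p) k'] {φ : D →* k'ˣ}

/-- The action of `GQ` on `X_φ` is right translation through `Ḡ`. -/
lemma baseMod_ρ_apply (g : GQ) (x : baseMod (p := p) N D φ) (h : GQ ⧸ N) :
    ((baseMod (p := p) N D φ).ρ g x).1 h = x.1 (h * (QuotientGroup.mk g : GQ ⧸ N)) := rfl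

/-- The equivariance of the elements of `X_φ`. -/
lemma baseMod_equivariant (x : baseMod (p := p) N D φ) (d : D) (h : GQ ⧸ N) :
    x.1 ((d : GQ ⧸ N) * h) = ((φ d : k'ˣ) : k') * x.1 h :=
  x.2 d h

@[ext] lemma baseMod_ext {x y : baseMod (p := p) N D φ} (h : ∀ g : GQ ⧸ N, x.1 g = y.1 g) :
    x = y :=
  Subtype.ext (funext h)

/-- `N` acts trivially on `X_φ`. -/
lemma baseMod_ρ_of_mem {n : GQ} (hn : n ∈ N) (x : baseMod (p := p) N D φ) :
    (baseMod (p := p) N D φ).ρ n x = x := by
  ext h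
  rw [baseMod_ρ_apply, (QuotientGroup.eq_one_iff n).2 hn, mul_one]

section cocycle

variable {b : GQ → baseMod (p := p) N D φ} (hb : b ∈ cocycles₁ (baseMod (p := p) N D φ))

include hb

lemma cocycle_mul (g h : GQ) : b (g * h) = (baseMod (p := p) N D φ).ρ g (b h) + b g :=
  (mem_cocycles₁_iff b).1 hb g h

lemma cocycle_one : b 1 = 0 := by
  have h := cocycle_mul hb 1 1
  rw [mul_one, map_one, Module.End.one_apply] at h
  have : b 1 + 0 = b 1 + b 1 := by rw [add_zero]; exact h
  exact (add_left_cancel this).symm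

lemma cocycle_mul_of_mem_left {n : GQ} (hn : n ∈ N) (g : GQ) : b (n * g) = b g + b n := by
  rw [cocycle_mul hb, baseMod_ρ_of_mem hn]

/-- `g • b n = b (g n g⁻¹)` for `n ∈ N`. -/
lemma ρ_cocycle_of_mem {n : GQ} (hn : n ∈ N) (g : GQ) :
    (baseMod (p := p) N D φ).ρ g (b n) = b (g * n * g⁻¹) := by
  have hc : g * n * g⁻¹ ∈ N := (inferInstance : N.Normal).conj_mem n hn g
  have h1 : b (g * n) = (baseMod (p := p) N D φ).ρ g (b n) + b g := cocycle_mul hb g n
  have h2 : b (g * n) = b g + b (g * n * g⁻¹) := by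
    have : g * n = (g * n * g⁻¹) * g := by group
    rw [this, cocycle_mul_of_mem_left hb hc]
    congr 2
    group
  rw [h1, add_comm] at h2
  exact add_left_cancel h2

/-- The values of `b n` are the values of `evChar b` at the conjugates of `n`. -/
lemma cocycle_apply_mk (n : N) (g : GQ) :
    (b n).1 (QuotientGroup.mk g : GQ ⧸ N) = evChar N D φ b (conjN N g n) := by
  have h := ρ_cocycle_of_mem hb n.2 g
  have h2 := congrArg (fun x : baseMod (p := p) N D φ => x.1 1) h
  simp only [baseMod_ρ_apply, one_mul] at h2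
  exact h2

lemma evChar_mul (n n' : N) :
    evChar N D φ b (n * n') = evChar N D φ b n + evChar N D φ b n' := by
  unfold evChar
  rw [Subgroup.coe_mul, cocycle_mul_of_mem_left hb n.2]
  rw [add_comm]
  rfl

lemma evChar_conj (u : GQ) (hu : (QuotientGroup.mk u : GQ ⧸ N) ∈ D) (n : N) :
    evChar N D φ b (conjN N u n) = ((φ ⟨_, hu⟩ : k'ˣ) : k') * evChar N D φ b n := by
  rw [← cocycle_apply_mk hb n u]
  have := baseMod_equivariant (p := p) (b n) ⟨_, hu⟩ 1
  rw [mul_one] at this
  exact this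

/-- If `evChar b = 0` then `b` vanishes on `N`. -/
lemma cocycle_eq_zero_of_evChar_eq_zero (h0 : ∀ g : GQ, ∀ n : N, evChar N D φ b (conjN N g n) = 0)
    (n : N) : b n = 0 := by
  ext h
  obtain ⟨g, rfl⟩ := QuotientGroup.mk_surjective h
  rw [cocycle_apply_mk hb n g, h0 g n]
  rfl

end cocycle

/-- For an LC cocycle, `evChar b` is an equivariant level-constant character. -/
theorem evChar_mem_eqChar {b : GQ → baseMod (p := p) N D φ}
    (hb : b ∈ LC.Z₁ (globalLevel T) (baseMod (p := p) N D φ)) :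
    evChar N D φ b ∈ EqChar (p := p) T N D φ := by
  refine ⟨evChar_mul hb.1, ?_, evChar_conj hb.1⟩
  obtain ⟨N', hN', hinv⟩ := hb.2
  refine ⟨N', hN', fun n hn => ?_⟩
  have h := hinv 1 n hn
  rw [one_mul, cocycle_one hb.1] at h
  unfold evChar
  rw [h]
  rfl

end Fermat.Agent.TW.Euler.Base.ShInf
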