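/-
Program G (S56), block GW-Euler, base case, node (SH-INF) — helper1.

ACYCLICITY of `X_φ = Coind_D^Ḡ k'(φ)` (`|D|` invertible in `k'`) for every subgroup: a function
`b : GQ → X_φ` satisfying the cocycle identity on a subgroup `Z ≤ GQ` and vanishing on `Z ∩ N`
is a coboundary on `Z`.  (`X_φ` is a direct summand, by averaging over `D`, of `Map(Ḡ, k')`, which
has an explicit contracting homotopy for the right translation action of the image of `Z`.)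
-/
import Fermat.Agent.TW.Euler.Base.ShInf.Cocycle

set_option autoImplicit false

open CategoryTheory Module groupCohomology
open Fermat.Agent.CFT Fermat.Agent.S55

namespace Fermat.Agent.TW.Euler.Base.ShInf

open Fermat.Agent.TW.Euler

local notation "GQ" => (AlgebraicClosure ℚ ≃ₐ[ℚ] AlgebraicClosure ℚ)

variable {p : ℕ} [Fact p.Prime]
  {N : Subgroup GQ} [N.Normal] {D : Subgroup (GQ ⧸ N)} {k' : Type} [Field k']
  [Algebra (ZMod p) k'] {φ : D →* k'ˣ}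

/-- Averaging over `D`, as a function. -/
noncomputable def avgFun [Fintype D] (φ : D →* k'ˣ) (y₀ : GQ ⧸ N → k') : GQ ⧸ N → k' :=
  fun h => ((Fintype.card D : k'))⁻¹ * ∑ d : D, (((φ d)⁻¹ : k'ˣ) : k') * y₀ ((d : GQ ⧸ N) * h)

lemma avgFun_mul [Fintype D] (y₀ : GQ ⧸ N → k') (d' : D) (h : GQ ⧸ N) :
    avgFun φ y₀ ((d' : GQ ⧸ N) * h) = ((φ d' : k'ˣ) : k') * avgFun φ y₀ h := by
  unfold avgFun
  have key : ∑ d : D, (((φ d)⁻¹ : k'ˣ) : k') * y₀ ((d : GQ ⧸ N) * ((d' : GQ ⧸ N) * h))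
      = ((φ d' : k'ˣ) : k') * ∑ d : D, (((φ d)⁻¹ : k'ˣ) : k') * y₀ ((d : GQ ⧸ N) * h) := by
    rw [Finset.mul_sum]
    rw [← Equiv.sum_comp (Equiv.mulRight d') (fun e : D =>
      ((φ d' : k'ˣ) : k') * ((((φ e)⁻¹ : k'ˣ) : k') * y₀ ((e : GQ ⧸ N) * h)))]
    refine Finset.sum_congr rfl fun d _ => ?_
    simp only [Equiv.coe_mulRight, map_mul, mul_inv_rev, Units.val_mul, Subgroup.coe_mul]
    rw [← mul_assoc ((φ d' : k'ˣ) : k'), ← mul_assoc ((φ d' : k'ˣ) : k'), Units.mul_inv, one_mul,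
      mul_assoc (d : GQ ⧸ N)]
  rw [key]
  ring

/-- Averaging over `D`: the projector of `Map(Ḡ, k')` onto `X_φ`. -/
noncomputable def avgD [Fintype D] (y₀ : GQ ⧸ N → k') : baseMod (p := p) N D φ :=
  ⟨avgFun φ y₀, fun d' h => avgFun_mul y₀ d' h⟩

lemma avgD_apply [Fintype D] (y₀ : GQ ⧸ N → k') (h : GQ ⧸ N) :
    (avgD (p := p) (φ := φ) y₀).1 h
      = ((Fintype.card D : k'))⁻¹ *
        ∑ d : D, (((φ d)⁻¹ : k'ˣ) : k') * y₀ ((d : GQ ⧸ N) * h) := rfl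

/-- **Acyclicity.** -/
theorem exists_primitive_of_vanish (hD : (Nat.card D : k') ≠ 0) (Z : Subgroup GQ)
    {b : GQ → baseMod (p := p) N D φ}
    (hcoc : ∀ z ∈ Z, ∀ z' ∈ Z, b (z * z') = (baseMod (p := p) N D φ).ρ z (b z') + b z)
    (h0 : ∀ z ∈ Z, z ∈ N → b z = 0) :
    ∃ y : baseMod (p := p) N D φ, ∀ z ∈ Z, b z = (baseMod (p := p) N D φ).ρ z y - y := by
  classical
  have hfin : Finite D := by
    by_contra hinf
    rw [not_finite_iff_infinite] at hinf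
    exact hD (by rw [Nat.card_eq_zero_of_infinite, Nat.cast_zero])
  have := Fintype.ofFinite D
  have hcard : (Fintype.card D : k') ≠ 0 := by rwa [← Nat.card_eq_fintype_card]
  -- step 1: `b` only depends on the image in `Ḡ`
  have hfac : ∀ z ∈ Z, ∀ z' ∈ Z, (QuotientGroup.mk z : GQ ⧸ N) = QuotientGroup.mk z' →
      b z' = b z := by
    intro z hz z' hz' hzz'
    have hn : z⁻¹ * z' ∈ N := QuotientGroup.eq.1 hzz'
    have hZ : z⁻¹ * z' ∈ Z := Z.mul_mem (Z.inv_mem hz) hz'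
    have : z' = z * (z⁻¹ * z') := by group
    rw [this, hcoc z hz _ hZ, h0 _ hZ hn, map_zero, zero_add]
  -- step 2: coset representatives for the image of `Z`
  let Zb : Subgroup (GQ ⧸ N) := Z.map (QuotientGroup.mk' N)
  let t : GQ ⧸ N → GQ ⧸ N := fun h => Quotient.out (QuotientGroup.mk h : (GQ ⧸ N) ⧸ Zb)
  have ht : ∀ h, (t h)⁻¹ * h ∈ Zb := by
    intro h
    have : (QuotientGroup.mk (t h) : (GQ ⧸ N) ⧸ Zb) = QuotientGroup.mk h :=
      Quotient.out_eq _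
    exact QuotientGroup.eq.1 this
  have ht_mul : ∀ h, ∀ zb ∈ Zb, t (h * zb) = t h := by
    intro h zb hzb
    have : (QuotientGroup.mk (h * zb) : (GQ ⧸ N) ⧸ Zb) = QuotientGroup.mk h := by
      rw [QuotientGroup.eq]
      simpa [mul_assoc] using Zb.inv_mem hzb
    show Quotient.out _ = Quotient.out _
    rw [this]
  -- step 3: lifts
  have hlift : ∀ h, ∃ z ∈ Z, (QuotientGroup.mk z : GQ ⧸ N) = (t h)⁻¹ * h := by
    intro h
    obtain ⟨z, hz, hzh⟩ := ht h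
    exact ⟨z, hz, hzh⟩
  choose zz hzzZ hzz using hlift
  -- step 4
  let y₀ : GQ ⧸ N → k' := fun h => (b (zz h)).1 (t h)
  have hy₀ : ∀ z ∈ Z, ∀ h, y₀ (h * (QuotientGroup.mk z : GQ ⧸ N)) - y₀ h = (b z).1 h := by
    intro z hz h
    have hzb : (QuotientGroup.mk z : GQ ⧸ N) ∈ Zb := ⟨z, hz, rfl⟩
    have h1 : t (h * (QuotientGroup.mk z : GQ ⧸ N)) = t h := ht_mul h _ hzb
    have h2 : b (zz (h * (QuotientGroup.mk z : GQ ⧸ N))) = b (zz h * z) := by
      refine (hfac (zz h * z) (Z.mul_mem (hzzZ h) hz) _ (hzzZ _) ?_)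
      rw [QuotientGroup.mk_mul, hzz, hzz, h1, mul_assoc]
    show (b (zz (h * (QuotientGroup.mk z : GQ ⧸ N)))).1 (t (h * (QuotientGroup.mk z : GQ ⧸ N)))
      - (b (zz h)).1 (t h) = (b z).1 h
    rw [h1, h2, hcoc _ (hzzZ h) _ hz]
    have h3 : ((baseMod (p := p) N D φ).ρ (zz h) (b z) + b (zz h)).1 (t h)
        = ((baseMod (p := p) N D φ).ρ (zz h) (b z)).1 (t h) + (b (zz h)).1 (t h) := rfl
    rw [h3, baseMod_ρ_apply, hzz, ← mul_assoc, mul_inv_cancel, one_mul]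
    ring
  -- step 5: average
  refine ⟨avgD (p := p) (φ := φ) y₀, fun z hz => ?_⟩
  ext h
  have h4 : ((baseMod (p := p) N D φ).ρ z (avgD (p := p) (φ := φ) y₀) - avgD (p := p) (φ := φ) y₀).1 h
      = ((baseMod (p := p) N D φ).ρ z (avgD (p := p) (φ := φ) y₀)).1 h
        - (avgD (p := p) (φ := φ) y₀).1 h := rfl
  rw [h4, baseMod_ρ_apply, avgD_apply, avgD_apply, ← mul_sub, ← Finset.sum_sub_distrib]
  have h5 : ∀ d : D,
      (((φ d)⁻¹ : k'ˣ) : k') * y₀ ((d : GQ ⧸ N) * (h * (QuotientGroup.mk z : GQ ⧸ N)))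
      - (((φ d)⁻¹ : k'ˣ) : k') * y₀ ((d : GQ ⧸ N) * h) = (b z).1 h := by
    intro d
    rw [← mul_sub, ← mul_assoc (d : GQ ⧸ N), hy₀ z hz, baseMod_equivariant (p := p) (b z) d h,
      ← mul_assoc, ← Units.val_mul, inv_mul_cancel, Units.val_one, one_mul]
  rw [Finset.sum_congr rfl fun d _ => h5 d, Finset.sum_const, Finset.card_univ, nsmul_eq_mul,
    ← mul_assoc, inv_mul_cancel₀ hcard, one_mul]

end Fermat.Agent.TW.Euler.Base.ShInf
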