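/-
Program G (S56), block GW-Euler, base case, node (SH-INF) — helper1.

TRANSFER: every `D`-equivariant level-constant character `χ : N → k'` is `evChar b` for an LC
`1`-cocycle `b : GQ → X_φ`.  With a section `s : Ḡ → GQ` and `c (h, g) = s h · g · s (h ḡ)⁻¹ ∈ N`,
`b g (h) = |D|⁻¹ ∑_{d ∈ D} φ d⁻¹ χ (c (d h, g))`.
-/
import Fermat.Agent.TW.Euler.Base.ShInf.Acyclic

set_option autoImplicit false

open CategoryTheory Module groupCohomology
open Fermat.Agent.CFT Fermat.Agent.S55

namespace Fermat.Agent.TW.Euler.Base.ShInf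

open Fermat.Agent.TW.Euler

local notation "GQ" => (AlgebraicClosure ℚ ≃ₐ[ℚ] AlgebraicClosure ℚ)

variable {p : ℕ} [Fact p.Prime] {T : Finset Nat.Primes}
  {N : Subgroup GQ} [N.Normal] {D : Subgroup (GQ ⧸ N)} {k' : Type} [Field k']
  [Algebra (ZMod p) k'] {φ : D →* k'ˣ}

/-- The section of `GQ → Ḡ`. -/
noncomputable def sec (h : GQ ⧸ N) : GQ := Quotient.out h

lemma mk_sec (h : GQ ⧸ N) : (QuotientGroup.mk (sec h) : GQ ⧸ N) = h := Quotient.out_eq h

/-- The `N`-valued factor set `c (h, g) = s h · g · s (h ḡ)⁻¹`. -/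
noncomputable def facN (h : GQ ⧸ N) (g : GQ) : N :=
  ⟨sec h * g * (sec (h * (QuotientGroup.mk g : GQ ⧸ N)))⁻¹, by
    rw [← QuotientGroup.eq_one_iff, QuotientGroup.mk_mul, QuotientGroup.mk_mul,
      QuotientGroup.mk_inv, mk_sec, mk_sec, mul_inv_cancel]⟩

lemma facN_mul (h : GQ ⧸ N) (g g' : GQ) :
    facN h (g * g') = facN h g * facN (h * (QuotientGroup.mk g : GQ ⧸ N)) g' := by
  apply Subtype.ext
  simp only [facN, Subgroup.coe_mul, QuotientGroup.mk_mul, mul_assoc]
  group

lemma avgD_add [Fintype D] (y y' : GQ ⧸ N → k') :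
    avgD (p := p) (φ := φ) (y + y') = avgD (p := p) (φ := φ) y + avgD (p := p) (φ := φ) y' := by
  ext h
  show avgFun φ (y + y') h = avgFun φ y h + avgFun φ y' h
  unfold avgFun
  simp only [Pi.add_apply, mul_add, Finset.sum_add_distrib]

/-- **Transfer.** -/
theorem exists_cocycle_of_eqChar (hD : (Nat.card D : k') ≠ 0)
    (hN : (globalLevel T).IsLevel N) {χ : N → k'} (hχ : χ ∈ EqChar (p := p) T N D φ) :
    ∃ b : GQ → baseMod (p := p) N D φ, b ∈ LC.Z₁ (globalLevel T) (baseMod (p := p) N D φ) ∧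
      evChar N D φ b = χ := by
  classical
  have hfin : Finite D := by
    by_contra hinf
    rw [not_finite_iff_infinite] at hinf
    exact hD (by rw [Nat.card_eq_zero_of_infinite, Nat.cast_zero])
  have := Fintype.ofFinite D
  have hcard : (Fintype.card D : k') ≠ 0 := by rwa [← Nat.card_eq_fintype_card]
  obtain ⟨hadd, ⟨N', hN', hvan⟩, heq⟩ := hχ
  have hχ1 : χ 1 = 0 := by
    have := hadd 1 1
    rw [mul_one] at this
    have h' : χ 1 + 0 = χ 1 + χ 1 := by rw [add_zero]; exact this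
    exact (add_left_cancel h').symm
  let b : GQ → baseMod (p := p) N D φ := fun g => avgD (p := p) (φ := φ) (fun h => χ (facN h g))
  have hb_apply : ∀ g h, (b g).1 h = ((Fintype.card D : k'))⁻¹ *
      ∑ d : D, (((φ d)⁻¹ : k'ˣ) : k') * χ (facN ((d : GQ ⧸ N) * h) g) := fun g h => rfl
  -- cocycle identity
  have hcoc : ∀ g g', b (g * g') = (baseMod (p := p) N D φ).ρ g (b g') + b g := by
    intro g g'
    have h1 : (fun h => χ (facN h (g * g')))
        = (fun h => χ (facN (h * (QuotientGroup.mk g : GQ ⧸ N)) g')) + (fun h => χ (facN h g)) := by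
      funext h
      rw [Pi.add_apply, facN_mul, hadd, add_comm]
    show avgD (p := p) (φ := φ) (fun h => χ (facN h (g * g'))) = _
    rw [h1, avgD_add]
    congr 1
    ext h
    rw [baseMod_ρ_apply, avgD_apply, hb_apply]
    simp only [mul_assoc]
  -- values on `N`
  have hbN : ∀ n : N, ∀ h : GQ ⧸ N, facN h (n : GQ) = conjN N (sec h) n := by
    intro n h
    apply Subtype.ext
    simp only [facN, coe_conjN, (QuotientGroup.eq_one_iff (n : GQ)).2 n.2, mul_one]
  refine ⟨b, ⟨(mem_cocycles₁_iff b).2 hcoc, ?_⟩, ?_⟩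
  · -- level-constant
    obtain ⟨N'', hN'', hle⟩ := (globalLevel T).directed hN' hN
    have hnorm : N'.Normal := (globalLevel T).normal hN'
    refine ⟨N'', hN'', fun g s hs => ?_⟩
    have hsN : s ∈ N := (hle hs).2
    have hsN' : s ∈ N' := (hle hs).1
    rw [hcoc g s]
    have hbs : b s = 0 := by
      ext h
      rw [hb_apply]
      have : ∀ d : D, χ (facN ((d : GQ ⧸ N) * h) s) = 0 := by
        intro d
        have h2 := hbN ⟨s, hsN⟩ ((d : GQ ⧸ N) * h)
        have h3 : facN ((d : GQ ⧸ N) * h) s = conjN N (sec ((d : GQ ⧸ N) * h)) ⟨s, hsN⟩ := h2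
        rw [h3]
        refine hvan _ ?_
        rw [coe_conjN]
        exact hnorm.conj_mem s hsN' _
      simp only [this, mul_zero, Finset.sum_const_zero]
      rfl
    rw [hbs, map_zero, zero_add]
  · -- `evChar b = χ`
    funext n
    show (b n).1 1 = χ n
    rw [hb_apply]
    have : ∀ d : D, (((φ d)⁻¹ : k'ˣ) : k') * χ (facN ((d : GQ ⧸ N) * 1) (n : GQ)) = χ n := by
      intro d
      rw [hbN n, mul_one]
      have hd : (QuotientGroup.mk (sec (d : GQ ⧸ N)) : GQ ⧸ N) ∈ D := by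
        rw [mk_sec]; exact d.2
      rw [heq (sec (d : GQ ⧸ N)) hd n]
      have hd' : (⟨_, hd⟩ : D) = d := Subtype.ext (mk_sec _)
      rw [hd', ← mul_assoc, ← Units.val_mul, inv_mul_cancel, Units.val_one, one_mul]
    rw [Finset.sum_congr rfl fun d _ => this d, Finset.sum_const, Finset.card_univ, nsmul_eq_mul,
      ← mul_assoc, inv_mul_cancel₀ hcard, one_mul]

end Fermat.Agent.TW.Euler.Base.ShInf
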