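/-
Program G (S56), block GW-Euler, base case, node (SH-INF) — helper1.

MAIN STATEMENTS for `X_φ = baseMod N D φ` (`|D|` invertible in `k'`, `N` a level of `globalLevel T`):

* `h1EquivEqChar`   : `LC.H1 (globalLevel T) X_φ ≃ₗ[𝔽_p] EqChar T N D φ`, `[b] ↦ (n ↦ b n (1))`;
* `lcResH1_eq_zero_iff` : for `r : H →* GQ`, the restriction of `[b]` along `r` vanishes iff
  `evChar b` vanishes on all `GQ`-conjugates of `r(H) ∩ N`;
* `mem_shaLC₁_iff_evChar` (MACKEY-Ш): `[b] ∈ shaLC₁ T X_φ` iff `evChar b` vanishes on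
  `N ∩ g · range (primeLocalToGlobal ℓ) · g⁻¹` for all `g` and all `ℓ ∈ T`;
* `ShaChar`, `shaEquivShaChar` : `shaLC₁ T X_φ ≃ₗ[𝔽_p] ShaChar T N D φ`.
-/
import Fermat.Agent.TW.Euler.Base.ShInf.Transfer

set_option autoImplicit false

open CategoryTheory Module groupCohomology ExtCitation
open Fermat.Agent.CFT Fermat.Agent.S55

namespace Fermat.Agent.TW.Euler.Base.ShInf

open Fermat.Agent.TW.Euler

local notation "GQ" => (AlgebraicClosure ℚ ≃ₐ[ℚ] AlgebraicClosure ℚ)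

variable {p : ℕ} [Fact p.Prime] {T : Finset Nat.Primes}
  {N : Subgroup GQ} [N.Normal] {D : Subgroup (GQ ⧸ N)} {k' : Type} [Field k']
  [Algebra (ZMod p) k'] {φ : D →* k'ˣ}

/-- `b ↦ evChar b` as a linear map on LC `1`-cocycles. -/
noncomputable def evZ₁ (T : Finset Nat.Primes) (N : Subgroup GQ) [N.Normal]
    (D : Subgroup (GQ ⧸ N)) (φ : D →* k'ˣ) :
    ↥(LC.Z₁ (globalLevel T) (baseMod (p := p) N D φ)) →ₗ[ZMod p] ↥(EqChar (p := p) T N D φ) where
  toFun b := ⟨evChar N D φ b.1, evChar_mem_eqChar b.2⟩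
  map_add' _ _ := rfl
  map_smul' _ _ := rfl

@[simp] lemma evZ₁_apply (b : ↥(LC.Z₁ (globalLevel T) (baseMod (p := p) N D φ))) (n : N) :
    (evZ₁ T N D φ b : N → k') n = ((b : GQ → baseMod (p := p) N D φ) n).1 1 := rfl

/-- A coboundary vanishes on `N`. -/
lemma coboundary_apply_of_mem (y : baseMod (p := p) N D φ) {n : GQ} (hn : n ∈ N) :
    (d₀₁ (baseMod (p := p) N D φ)).hom y n = 0 := by
  rw [d₀₁_hom_apply, baseMod_ρ_of_mem hn, sub_self]

theorem ker_evZ₁ (hD : (Nat.card D : k') ≠ 0) :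
    LinearMap.ker (evZ₁ (p := p) T N D φ)
      = (LC.B₁ (globalLevel T) (baseMod (p := p) N D φ)).comap
          (LC.Z₁ (globalLevel T) (baseMod (p := p) N D φ)).subtype := by
  ext b
  rw [LinearMap.mem_ker, Submodule.mem_comap, Submodule.subtype_apply]
  constructor
  · intro h0
    have h0' : ∀ n : N, evChar N D φ b.1 n = 0 := fun n =>
      congrFun (congrArg Subtype.val h0) n
    have hbN : ∀ n : N, b.1 n = 0 :=
      cocycle_eq_zero_of_evChar_eq_zero b.2.1 fun g n => h0' _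
    obtain ⟨y, hy⟩ := exists_primitive_of_vanish (p := p) hD ⊤
      (b := b.1) (fun z _ z' _ => cocycle_mul b.2.1 z z') (fun z _ hz => hbN ⟨z, hz⟩)
    refine ⟨y, ?_⟩
    funext g
    rw [d₀₁_hom_apply]
    exact (hy g trivial).symm
  · rintro ⟨y, hy⟩
    apply Subtype.ext
    funext n
    show (b.1 n).1 1 = 0
    rw [← hy, coboundary_apply_of_mem y n.2]
    rfl

theorem evZ₁_surjective (hD : (Nat.card D : k') ≠ 0) (hN : (globalLevel T).IsLevel N) :
    Function.Surjective (evZ₁ (p := p) T N D φ) := by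
  rintro ⟨χ, hχ⟩
  obtain ⟨b, hb, hbχ⟩ := exists_cocycle_of_eqChar (p := p) hD hN hχ
  exact ⟨⟨b, hb⟩, Subtype.ext hbχ⟩

/-- **(SH-INF) (i).**  `H¹(X_φ)` is the space of `D`-equivariant level-constant characters of `N`,
via `[b] ↦ (n ↦ b n (1))`. -/
noncomputable def h1EquivEqChar (hD : (Nat.card D : k') ≠ 0) (hN : (globalLevel T).IsLevel N) :
    LC.H1 (globalLevel T) (baseMod (p := p) N D φ) ≃ₗ[ZMod p] ↥(EqChar (p := p) T N D φ) :=
  (Submodule.quotEquivOfEq _ _ (ker_evZ₁ (p := p) (T := T) (N := N) (φ := φ) hD).symm).trans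
    ((evZ₁ (p := p) T N D φ).quotKerEquivOfSurjective (evZ₁_surjective hD hN))

@[simp] theorem h1EquivEqChar_mk (hD : (Nat.card D : k') ≠ 0) (hN : (globalLevel T).IsLevel N)
    (b : ↥(LC.Z₁ (globalLevel T) (baseMod (p := p) N D φ))) :
    h1EquivEqChar hD hN (LC.H1π (globalLevel T) (baseMod (p := p) N D φ) b) = evZ₁ T N D φ b :=
  rfl

theorem h1EquivEqChar_mk_apply (hD : (Nat.card D : k') ≠ 0) (hN : (globalLevel T).IsLevel N)
    (b : ↥(LC.Z₁ (globalLevel T) (baseMod (p := p) N D φ))) (n : N) :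
    (h1EquivEqChar hD hN (LC.H1π (globalLevel T) (baseMod (p := p) N D φ) b) : N → k') n
      = ((b : GQ → baseMod (p := p) N D φ) n).1 1 := rfl

/-- `H¹` of the LC complex of `X_φ` is `EqChar`. -/
noncomputable def cxH1EquivEqChar (hD : (Nat.card D : k') ≠ 0) (hN : (globalLevel T).IsLevel N) :
    (LC.cx (isSmooth_baseMod (p := p) N D hN φ)).H 1 ≃ₗ[ZMod p] ↥(EqChar (p := p) T N D φ) :=
  (LC.h1Equiv (isSmooth_baseMod (p := p) N D hN φ)).trans (h1EquivEqChar hD hN)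

theorem finrank_H1_eq (hD : (Nat.card D : k') ≠ 0) (hN : (globalLevel T).IsLevel N) :
    finrank (ZMod p) (LC.H1 (globalLevel T) (baseMod (p := p) N D φ))
      = finrank (ZMod p) ↥(EqChar (p := p) T N D φ) :=
  (h1EquivEqChar hD hN).finrank_eq

theorem finrank_cxH1_eq (hD : (Nat.card D : k') ≠ 0) (hN : (globalLevel T).IsLevel N) :
    finrank (ZMod p) ((LC.cx (isSmooth_baseMod (p := p) N D hN φ)).H 1)
      = finrank (ZMod p) ↥(EqChar (p := p) T N D φ) :=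
  (cxH1EquivEqChar hD hN).finrank_eq

/-! ### Restriction along `r : H →* GQ` -/

section Res

variable {H : Type} [Group H] (r : H →* GQ) {L' : LevelStructure H}

/-- **(MACKEY), cochain form.**  The restriction along `r : H →* GQ` of the class of an LC
`1`-cocycle `b` vanishes iff `evChar b` vanishes on all `GQ`-conjugates of `r(H) ∩ N`. -/
theorem lcResH1_eq_zero_iff (hD : (Nat.card D : k') ≠ 0)
    (hc : LevelCompat r (globalLevel T) L')
    (b : ↥(LC.Z₁ (globalLevel T) (baseMod (p := p) N D φ))) :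
    lcResH1 (baseMod (p := p) N D φ) hc (LC.H1π (globalLevel T) (baseMod (p := p) N D φ) b) = 0 ↔
      ∀ (h : H) (hh : r h ∈ N) (g : GQ), evChar N D φ b.1 (conjN N g ⟨r h, hh⟩) = 0 := by
  rw [lcResH1_mk, LC.H1π_eq_zero_iff, coe_lcResZ₁]
  constructor
  · rintro ⟨y, hy⟩ h hh g
    have h1 : b.1 (r h) = 0 := by
      have h2 := congrFun hy h
      rw [pullC₁_apply] at h2
      rw [← h2, d₀₁_hom_apply]
      show (baseMod (p := p) N D φ).ρ (r h) y - y = 0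
      rw [baseMod_ρ_of_mem hh, sub_self]
    rw [← cocycle_apply_mk b.2.1 ⟨r h, hh⟩ g]
    show (b.1 (r h)).1 _ = 0
    rw [h1]
    rfl
  · intro h0
    have hbZ : ∀ z ∈ r.range, z ∈ N → b.1 z = 0 := by
      rintro _ ⟨h, rfl⟩ hz
      ext x
      obtain ⟨g, rfl⟩ := QuotientGroup.mk_surjective x
      have := cocycle_apply_mk b.2.1 ⟨r h, hz⟩ g
      rw [h0 h hz g] at this
      exact this
    obtain ⟨y, hy⟩ := exists_primitive_of_vanish (p := p) hD r.range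
      (b := b.1) (fun z _ z' _ => cocycle_mul b.2.1 z z') hbZ
    refine ⟨y, ?_⟩
    funext h
    rw [pullC₁_apply, d₀₁_hom_apply]
    exact (hy (r h) ⟨h, rfl⟩).symm

end Res

/-- **(MACKEY-Ш), cocycle form.** -/
theorem mem_shaLC₁_iff_evChar (hD : (Nat.card D : k') ≠ 0)
    (b : ↥(LC.Z₁ (globalLevel T) (baseMod (p := p) N D φ))) :
    LC.H1π (globalLevel T) (baseMod (p := p) N D φ) b ∈ shaLC₁ T (baseMod (p := p) N D φ) ↔
      ∀ ℓ ∈ T, ∀ (g : GQ) (τ : primeLocalGaloisGroup ℓ)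
        (h : g * primeLocalToGlobal ℓ τ * g⁻¹ ∈ N), evChar N D φ b.1 ⟨_, h⟩ = 0 := by
  rw [mem_shaLC₁_iff]
  constructor
  · intro h0 ℓ hℓ g τ h
    have hτ : primeLocalToGlobal ℓ τ ∈ N := by
      have := (inferInstance : N.Normal).conj_mem _ h g⁻¹
      simpa [mul_assoc] using this
    exact (lcResH1_eq_zero_iff (primeLocalToGlobal ℓ) hD _ b).1 (h0 ⟨ℓ, hℓ⟩) τ hτ g
  · intro h0 q
    refine (lcResH1_eq_zero_iff (primeLocalToGlobal q.1) hD _ b).2 fun τ hτ g => ?_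
    exact h0 q.1 q.2 g τ ((inferInstance : N.Normal).conj_mem _ hτ g)

/-- The characters of `EqChar` vanishing on all `N ∩ g · range (primeLocalToGlobal ℓ) · g⁻¹`,
`ℓ ∈ T`. -/
def ShaChar (T : Finset Nat.Primes) (N : Subgroup GQ) [N.Normal] (D : Subgroup (GQ ⧸ N))
    (φ : D →* k'ˣ) : Submodule (ZMod p) (N → k') :=
  EqChar (p := p) T N D φ ⊓
    { carrier := {χ | ∀ ℓ ∈ T, ∀ (g : GQ) (τ : primeLocalGaloisGroup ℓ)
        (h : g * primeLocalToGlobal ℓ τ * g⁻¹ ∈ N), χ ⟨_, h⟩ = 0}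
      add_mem' := fun {χ χ'} h1 h2 ℓ hℓ g τ h => by
        rw [Pi.add_apply, h1 ℓ hℓ g τ h, h2 ℓ hℓ g τ h, add_zero]
      zero_mem' := fun _ _ _ _ _ => rfl
      smul_mem' := fun c χ h1 ℓ hℓ g τ h => by
        rw [Pi.smul_apply, h1 ℓ hℓ g τ h, smul_zero] }

lemma mem_shaChar_iff {χ : N → k'} :
    χ ∈ ShaChar (p := p) T N D φ ↔ χ ∈ EqChar (p := p) T N D φ ∧
      ∀ ℓ ∈ T, ∀ (g : GQ) (τ : primeLocalGaloisGroup ℓ)
        (h : g * primeLocalToGlobal ℓ τ * g⁻¹ ∈ N), χ ⟨_, h⟩ = 0 := Iff.rfl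

/-- **(MACKEY-Ш).**  Under `h1EquivEqChar`, `shaLC₁ T X_φ` is the space of the characters vanishing
on all `N ∩ g · range (primeLocalToGlobal ℓ) · g⁻¹`, `ℓ ∈ T`. -/
theorem mem_shaLC₁_iff_h1EquivEqChar (hD : (Nat.card D : k') ≠ 0)
    (hN : (globalLevel T).IsLevel N)
    (x : LC.H1 (globalLevel T) (baseMod (p := p) N D φ)) :
    x ∈ shaLC₁ T (baseMod (p := p) N D φ) ↔
      ∀ ℓ ∈ T, ∀ (g : GQ) (τ : primeLocalGaloisGroup ℓ)
        (h : g * primeLocalToGlobal ℓ τ * g⁻¹ ∈ N),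
        (h1EquivEqChar hD hN x : N → k') ⟨_, h⟩ = 0 := by
  obtain ⟨b, rfl⟩ := Submodule.mkQ_surjective _ x
  exact mem_shaLC₁_iff_evChar hD b

theorem mem_shaLC₁_iff_mem_shaChar (hD : (Nat.card D : k') ≠ 0)
    (hN : (globalLevel T).IsLevel N)
    (x : LC.H1 (globalLevel T) (baseMod (p := p) N D φ)) :
    x ∈ shaLC₁ T (baseMod (p := p) N D φ) ↔
      (h1EquivEqChar hD hN x : N → k') ∈ ShaChar (p := p) T N D φ := by
  rw [mem_shaLC₁_iff_h1EquivEqChar hD hN, mem_shaChar_iff]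
  exact ⟨fun h => ⟨(h1EquivEqChar hD hN x).2, h⟩, fun h => h.2⟩

/-- `shaLC₁ T X_φ ≃ ShaChar T N D φ`. -/
noncomputable def shaEquivShaChar (hD : (Nat.card D : k') ≠ 0)
    (hN : (globalLevel T).IsLevel N) :
    ↥(shaLC₁ T (baseMod (p := p) N D φ)) ≃ₗ[ZMod p] ↥(ShaChar (p := p) T N D φ) where
  toFun x := ⟨(h1EquivEqChar hD hN x.1 : N → k'), (mem_shaLC₁_iff_mem_shaChar hD hN x.1).1 x.2⟩
  map_add' x y := by
    apply Subtype.ext
    show ((h1EquivEqChar hD hN (x.1 + y.1) : ↥(EqChar (p := p) T N D φ)) : N → k') = _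
    rw [map_add]
    rfl
  map_smul' c x := by
    apply Subtype.ext
    show ((h1EquivEqChar hD hN (c • x.1) : ↥(EqChar (p := p) T N D φ)) : N → k') = _
    rw [map_smul]
    rfl
  invFun χ := ⟨(h1EquivEqChar hD hN).symm ⟨χ.1, χ.2.1⟩, by
    rw [mem_shaLC₁_iff_mem_shaChar hD hN, LinearEquiv.apply_symm_apply]
    exact χ.2⟩
  left_inv x := by
    apply Subtype.ext
    show (h1EquivEqChar hD hN).symm ⟨(h1EquivEqChar hD hN x.1 : N → k'), _⟩ = x.1
    rw [Subtype.coe_eta, LinearEquiv.symm_apply_apply]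
  right_inv χ := by
    apply Subtype.ext
    show ((h1EquivEqChar hD hN ((h1EquivEqChar hD hN).symm ⟨χ.1, χ.2.1⟩) :
      ↥(EqChar (p := p) T N D φ)) : N → k') = χ.1
    rw [LinearEquiv.apply_symm_apply]

theorem shaEquivShaChar_apply (hD : (Nat.card D : k') ≠ 0) (hN : (globalLevel T).IsLevel N)
    (x : ↥(shaLC₁ T (baseMod (p := p) N D φ))) :
    (shaEquivShaChar hD hN x : N → k') = (h1EquivEqChar hD hN x.1 : N → k') := rfl

theorem finrank_shaLC₁_eq (hD : (Nat.card D : k') ≠ 0) (hN : (globalLevel T).IsLevel N) :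
    finrank (ZMod p) ↥(shaLC₁ T (baseMod (p := p) N D φ))
      = finrank (ZMod p) ↥(ShaChar (p := p) T N D φ) :=
  (shaEquivShaChar hD hN).finrank_eq

/-- If every character in `ShaChar` is zero (KUM-Ш), then `shaLC₁ T X_φ = ⊥`. -/
theorem shaLC₁_eq_bot_of_shaChar (hD : (Nat.card D : k') ≠ 0) (hN : (globalLevel T).IsLevel N)
    (h0 : ∀ χ ∈ ShaChar (p := p) T N D φ, χ = 0) :
    shaLC₁ T (baseMod (p := p) N D φ) = ⊥ := by
  rw [eq_bot_iff]
  intro x hx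
  rw [Submodule.mem_bot]
  have h1 := h0 _ ((mem_shaLC₁_iff_mem_shaChar hD hN x).1 hx)
  have h2 : h1EquivEqChar hD hN x = 0 := Subtype.ext h1
  exact (h1EquivEqChar hD hN).map_eq_zero_iff.1 h2

end Fermat.Agent.TW.Euler.Base.ShInf
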