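/-
Program G (S56), block GW-Euler, base case, node (SH-INF) — helper1.

ADAPTER to the (KUM-Ш) contract (helper15, `hom_eq_one_of_vanish_conj_of_CT`): if every
level-constant homomorphism `χ : N →* Multiplicative k'` dying on all
`N ∩ g · range (primeLocalToGlobal ℓ) · g⁻¹`, `ℓ ∈ T`, is trivial, then `shaLC₁ T X_φ = ⊥`.
-/
import Fermat.Agent.TW.Euler.Base.ShInf.Main

set_option autoImplicit false

open CategoryTheory Module groupCohomology ExtCitation
open Fermat.Agent.CFT Fermat.Agent.S55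

namespace Fermat.Agent.TW.Euler.Base.ShInf

open Fermat.Agent.TW.Euler

local notation "GQ" => (AlgebraicClosure ℚ ≃ₐ[ℚ] AlgebraicClosure ℚ)

variable {p : ℕ} [Fact p.Prime] {T : Finset Nat.Primes}
  {N : Subgroup GQ} [N.Normal] {D : Subgroup (GQ ⧸ N)} {k' : Type} [Field k']
  [Algebra (ZMod p) k'] {φ : D →* k'ˣ}

/-- An additive character of `N` as a homomorphism to `Multiplicative k'`. -/
noncomputable def toMulHom {χ : N → k'} (hadd : ∀ n n' : N, χ (n * n') = χ n + χ n') :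
    ↥N →* Multiplicative k' where
  toFun n := Multiplicative.ofAdd (χ n)
  map_one' := by
    have h := hadd 1 1
    rw [mul_one] at h
    have h' : χ 1 + 0 = χ 1 + χ 1 := by rw [add_zero]; exact h
    have h0 : χ 1 = 0 := (add_left_cancel h').symm
    rw [h0]
    rfl
  map_mul' n n' := by
    rw [hadd]
    rfl

@[simp] lemma toMulHom_apply {χ : N → k'} (hadd : ∀ n n' : N, χ (n * n') = χ n + χ n') (n : N) :
    toMulHom hadd n = Multiplicative.ofAdd (χ n) := rfl

/-- The kernel of an `EqChar` character is open for the induced level structure on `N`. -/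
lemma isOpen_ker_toMulHom {χ : N → k'} (hχ : χ ∈ EqChar (p := p) T N D φ) :
    ((globalLevel T).comap N.subtype).IsOpen (toMulHom hχ.1).ker := by
  obtain ⟨N', hN', hvan⟩ := hχ.2.1
  refine ⟨N'.comap N.subtype, ⟨N', hN', rfl⟩, fun n hn => ?_⟩
  rw [MonoidHom.mem_ker, toMulHom_apply, hvan n hn]
  rfl

/-- **(SHA-VAN) from (KUM-Ш).** -/
theorem shaLC₁_eq_bot_of_kum (hD : (Nat.card D : k') ≠ 0) (hN : (globalLevel T).IsLevel N)
    (hkum : ∀ χ : ↥N →* Multiplicative k', ((globalLevel T).comap N.subtype).IsOpen χ.ker →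
      (∀ ℓ ∈ T, ∀ (g : GQ) (τ : primeLocalGaloisGroup ℓ)
        (h : g * primeLocalToGlobal ℓ τ * g⁻¹ ∈ N), χ ⟨_, h⟩ = 1) → χ = 1) :
    shaLC₁ T (baseMod (p := p) N D φ) = ⊥ := by
  refine shaLC₁_eq_bot_of_shaChar hD hN fun χ hχ => ?_
  have h1 := hkum (toMulHom hχ.1.1) (isOpen_ker_toMulHom hχ.1) (fun ℓ hℓ g τ h => by
    rw [toMulHom_apply, hχ.2 ℓ hℓ g τ h]
    rfl)
  funext n
  have h2 := congrArg (fun f : ↥N →* Multiplicative k' => Multiplicative.toAdd (f n)) h1
  exact h2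

/-- `|D|` is invertible in `k'` when `p ∤ |D|`. -/
lemma natCast_card_ne_zero (hpD : ¬ p ∣ Nat.card D) : (Nat.card D : k') ≠ 0 := by
  have : CharP k' p := charP_of_injective_algebraMap (algebraMap (ZMod p) k').injective p
  rwa [Ne, CharP.cast_eq_zero_iff k' p]

/-- **(SHA-VAN) from (KUM-Ш)**, in the shape of the second component of `ArithNodesOut`. -/
theorem finrank_shaLC₁_eq_zero_of_kum (hpD : ¬ p ∣ Nat.card D) (hN : (globalLevel T).IsLevel N)
    (hkum : ∀ χ : ↥N →* Multiplicative k', ((globalLevel T).comap N.subtype).IsOpen χ.ker →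
      (∀ ℓ ∈ T, ∀ (g : GQ) (τ : primeLocalGaloisGroup ℓ)
        (h : g * primeLocalToGlobal ℓ τ * g⁻¹ ∈ N), χ ⟨_, h⟩ = 1) → χ = 1) :
    finrank (ZMod p) (shaLC₁ T (baseMod (p := p) N D φ)) = 0 := by
  rw [shaLC₁_eq_bot_of_kum (natCast_card_ne_zero hpD) hN hkum]
  exact finrank_bot _ _

/-- **(SH-INF) (i)** in the `hG` shape of the first component of `ArithNodesOut`. -/
theorem hG_one_eq_finrank_eqChar (hpD : ¬ p ∣ Nat.card D) (hN : (globalLevel T).IsLevel N) :
    hG (isSmooth_baseMod (p := p) N D hN φ) 1 = finrank (ZMod p) ↥(EqChar (p := p) T N D φ) :=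
  finrank_cxH1_eq (natCast_card_ne_zero hpD) hN

end Fermat.Agent.TW.Euler.Base.ShInf
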