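/-
Program G (S56), block GW-Euler, base case, nodes (SH-INF) and (MACKEY-Ш) — helper1.

The literal contracts `ShInfOut` and `MackeyShaOut` of helper17's `Base/Arith/Contracts.lean`:
`homD T N D φ` is the submodule `EqChar T N D φ` of `ShInf/Defs.lean`.
-/
import Fermat.Agent.TW.Euler.Base.ShInf.Adapter
import Fermat.Agent.TW.Euler.Base.Arith.Contracts

set_option autoImplicit false

open CategoryTheory Module groupCohomology ExtCitation
open Fermat.Agent.CFT Fermat.Agent.S55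

namespace Fermat.Agent.TW.Euler.Base.ShInf

open Fermat.Agent.TW.Euler

local notation "GQ" => (AlgebraicClosure ℚ ≃ₐ[ℚ] AlgebraicClosure ℚ)

variable {p : ℕ} [Fact p.Prime] {T : Finset Nat.Primes}
  {N : Subgroup GQ} [N.Normal] {D : Subgroup (GQ ⧸ N)} {k' : Type} [Field k']
  [Algebra (ZMod p) k'] {φ : D →* k'ˣ}

/-- helper17's `homD` is `EqChar`. -/
theorem homD_eq_eqChar : homD (p := p) T N D φ = EqChar (p := p) T N D φ := by
  ext χ
  constructor
  · rintro ⟨hadd, ⟨V, ⟨N', hN', rfl⟩, hV⟩, heq⟩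
    refine ⟨hadd, ⟨N', hN', fun n hn => ?_⟩, fun u hu n => heq u hu n⟩
    have h1 := hV 1 n hn
    rw [one_mul] at h1
    have h2 := hadd 1 1
    rw [mul_one] at h2
    have h3 : χ 1 + 0 = χ 1 + χ 1 := by rw [add_zero]; exact h2
    rw [h1]
    exact (add_left_cancel h3).symm
  · rintro ⟨hadd, ⟨N', hN', hvan⟩, heq⟩
    refine ⟨hadd, ⟨N'.comap N.subtype, ⟨N', hN', rfl⟩, fun g s hs => ?_⟩, fun u hu n => heq u hu n⟩
    rw [hadd, hvan s hs, add_zero]

/-- **(SH-INF)**, helper17's literal contract. -/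
theorem shInfOut : ShInfOut := by
  intro p _ _ T _ N _ hN D hpD k' _ _ _ φ
  rw [hG_one_eq_finrank_eqChar hpD hN, homD_eq_eqChar]

/-- **(MACKEY-Ш)**, helper17's literal contract. -/
theorem mackeyShaOut : MackeyShaOut := by
  intro p _ _ T _ N _ hN D hpD k' _ _ _ φ h0
  rw [shaLC₁_eq_bot_of_shaChar (natCast_card_ne_zero hpD) hN, finrank_bot]
  intro χ hχ
  refine h0 χ ?_ hχ.2
  rw [homD_eq_eqChar]
  exact hχ.1

end Fermat.Agent.TW.Euler.Base.ShInf
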